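import Fermat.Agent.S19.B.EvalRed
import Fermat.Agent.S19.A.Sep
import Fermat.Agent.S19.Weil.EvGal

/-!
# S19 / B4: `τ ↦ f(τ E)` has separated variables  (`ev`, `evD` = `Fermat.Agent.S19.Weil.ev`, `evD`)

`f ∈ L(𝔄)`, `𝔄 ≥ 0` `Γ`-invariant, `f` a Gauss unit.  Invariant orthonormal basis `β` of `L(𝔄)`
(`GalRed.basis`): `f = ∑ c_i β_i`, `c_i ∈ A` (`coeff_mem_of_sum_mem`).
`f(τ P) = ∑ c_i β_i(τ P) = ∑ c_i τ(β_i(P))` (`Weil.ev_smul`, `β_i` invariant) and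
`τ(β_i(P)) = β_i(τ P) ∈ A` for all `τ` (`ev_red`), because `r(τ P) ∉ r(supp 𝔄)`.
Unit values: `ev_unit`.  Then `IsSep.zpow`, `IsSep.prod` (`GalRed.orbK`).
-/

set_option autoImplicit false

namespace Fermat.Agent.S19

open AlgebraicCurve Fermat.Agent.Lib.RR Fermat.Agent.GAL.RED Fermat.Agent.S19.Weil

variable {K F k Fb : Type*} [Field K] [Field F] [Algebra K F] [Field k] [Field Fb] [Algebra k Fb]
  [IsFF K F] [IsAlgClosed K] [IsFF k Fb] [IsAlgClosed k]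
  {R : RedData K F k Fb} {r : Place K F → Place k Fb} {Γ : Type*} [Group Γ]
  {ρ : Γ →* SemilinearAut K F}

omit [IsFF k Fb] [IsAlgClosed k] [Field k] [Field Fb] [Algebra k Fb] in
theorem Den_ev_sum_smul (P : Place K F) {n : ℕ} (c : Fin n → K) (β : Fin n → F)
    (hβ : ∀ i, β i ∈ P.toValuationSubring) :
    ev P (∑ i, c i • β i) = ∑ i, c i * ev P (β i) := by
  have hmem : ∀ i ∈ (Finset.univ : Finset (Fin n)), c i • β i ∈ P.toValuationSubring := by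
    intro i _
    rw [Algebra.smul_def]
    exact P.toValuationSubring.mul_mem _ _ (Ev_algebraMap_mem P (c i)) (hβ i)
  have h1 : ev P (∑ i, c i • β i) = ∑ i, ev P (c i • β i) := GRed.sum _ _ _ _ hmem
  rw [h1]
  refine Finset.sum_congr rfl fun i _ => ?_
  rw [Algebra.smul_def, ev_mul P (Ev_algebraMap_mem P (c i)) (hβ i), ev_algebraMap]

/-- B4a: one point. -/
theorem isSep_den_pt (h : GalRed R r ρ) {f : F} (hf : R.red f ≠ 0) {𝔄 : Divisor K F} (h𝔄 : 0 ≤ 𝔄)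
    (hinv : ∀ τ, ρ τ • 𝔄 = 𝔄) (hfL : f ∈ riemannRochSpace 𝔄) (P : Place K F)
    (hP : ∀ τ, ∀ Q ∈ 𝔄.support, r Q ≠ r (ρ τ • P)) :
    IsSep ((baseHom K F).comp ρ) R.A (fun τ => ev (ρ τ • P) f) := by
  obtain ⟨n, β, hβinv, hβO, hβind, hβspan⟩ := h.basis 𝔄 hinv
  have hfO : f ∈ R.O := (R.red_ne_zero_iff.1 hf).2.1
  rw [← hβspan] at hfL
  obtain ⟨c, rfl⟩ := (Submodule.mem_span_range_iff_exists_fun K).1 hfL
  have hc : ∀ i, c i ∈ R.A := coeff_mem_of_sum_mem R hβO hβind c hfO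
  have hβL : ∀ i, β i ∈ riemannRochSpace 𝔄 := by
    intro i
    rw [← hβspan]
    exact Submodule.subset_span ⟨i, rfl⟩
  have hreg : ∀ τ i, β i ∈ (ρ τ • P).toValuationSubring := by
    intro τ i
    have h0 : 𝔄 (ρ τ • P) = 0 := by
      by_contra hne
      exact hP τ (ρ τ • P) (Finsupp.mem_support_iff.2 hne) rfl
    rw [mem_iff_ord]
    rcases mem_riemannRochSpace_iff.1 (hβL i) (ρ τ • P) with h1 | h1
    · exact Or.inl h1
    · right
      rwa [h0, neg_zero] at h1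
  have hev : ∀ τ i, ev (ρ τ • P) (β i) = SemilinearAut.baseAut (ρ τ) (ev P (β i)) := by
    intro τ i
    rw [← ev_smul, hβinv]
  refine ⟨n, c, fun i => ev P (β i), hc, fun i τ => ?_, fun τ => ?_⟩
  · have h1 : ((baseHom K F).comp ρ) τ (ev P (β i)) = ev (ρ τ • P) (β i) := (hev τ i).symm
    rw [h1]
    exact (ev_red h.isRedMap h𝔄 (hβL i) (hβO i) (hP τ)).1
  · show ev (ρ τ • P) (∑ i, c i • β i) = _
    rw [Den_ev_sum_smul _ c β (hreg τ)]
    refine Finset.sum_congr rfl fun i _ => ?_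
    rw [hev τ i]
    rfl

/-- B4b: divisors. -/
theorem isSep_den (h : GalRed R r ρ) {f : F} (hf : R.red f ≠ 0) {𝔄 : Divisor K F} (h𝔄 : 0 ≤ 𝔄)
    (hinv : ∀ τ, ρ τ • 𝔄 = 𝔄) (hfL : f ∈ riemannRochSpace 𝔄) (E : Divisor K F)
    (hP : ∀ τ, ∀ P ∈ E.support, ∀ Q ∈ 𝔄.support, r Q ≠ r (ρ τ • P))
    (hP' : ∀ τ, ∀ P ∈ E.support, ∀ Q ∈ (divOf (K := K) f).support, r Q ≠ r (ρ τ • P)) :
    IsSep ((baseHom K F).comp ρ) R.A (fun τ => ((evD f (ρ τ • E) : Kˣ) : K)) := by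
  have horb : ∀ b : K, (Set.range fun τ => ((baseHom K F).comp ρ) τ b).Finite := h.orbK
  have hunit : ∀ τ, ∀ P ∈ E.support, ev (ρ τ • P) f ≠ 0 ∧ ev (ρ τ • P) f ∈ R.A ∧
      (ev (ρ τ • P) f)⁻¹ ∈ R.A := fun τ P hPE => ev_unit h.isRedMap hf (hP' τ P hPE)
  have hformula : ∀ τ, ((evD f (ρ τ • E) : Kˣ) : K) =
      ∏ P ∈ E.support, ev (ρ τ • P) f ^ (E P) := by
    intro τ
    unfold evD
    rw [SemilinearAut.divisor_smul_def,
      Finsupp.prod_mapDomain_index_inj (MulAction.injective (ρ τ)), Finsupp.prod, Units.coe_prod]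
    refine Finset.prod_congr rfl fun P hPE => ?_
    rw [Units.val_zpow_eq_zpow_val, Ev_evU_val_of_ne _ (hunit τ P hPE).1]
  refine IsSep.congr ?_ (fun τ => (hformula τ).symm)
  refine IsSep.prod E.support fun P hPE => ?_
  exact IsSep.zpow horb (isSep_den_pt h hf h𝔄 hinv hfL P (fun τ => hP τ P hPE))
    (fun τ => (hunit τ P hPE).1) (fun τ => (hunit τ P hPE).2.2) (E P)

end Fermat.Agent.S19
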