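import Fermat.Agent.S19.B.EvalRed
import Fermat.Agent.S19.A.Sep
import Fermat.Agent.S19.Weil.EvGal

/-!
# S19 / B3: `τ ↦ (τ g)(D)` has separated variables  (`ev`, `evD` = `Fermat.Agent.S19.Weil.ev`, `evD`)

`Z' := ⋃_τ supp div(τ g) = Γ · supp (div g)` is finite (`orbP`, `Weil.divOf_smul`).
`𝔇 := N ∑_{P ∈ Z'} P` (`N` = max of the `|ord_P g|`) is `Γ`-invariant and `g, g⁻¹ ∈ L(𝔇)`.  Invariant
orthonormal basis `β` of `L(𝔇)` (`GalRed.basis`): `g = ∑ c_i β_i`, `g⁻¹ = ∑ c'_i β_i`, so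
`τ g = ∑ τ(c_i) β_i`, `τ g⁻¹ = ∑ τ(c'_i) β_i`.  For `Q, Q'` with `r Q, r Q' ∉ r(Z')`:
`(τ g)(Q) / (τ g)(Q') = (τ g)(Q) · (τ g⁻¹)(Q') = ∑_{i,l} τ(c_i c'_l) β_i(Q) β_l(Q')`, where `β_i(Q) ∈ A`
(`ev_red`) and `τ(c_i c'_l) = (a τ c_i)(a⁻¹ τ c'_l) ∈ A`, `a` normalising `τ g`
(`IsCartesian.exists_scale`; `coeff_mem_of_sum_mem` applied to `a τ g` and to its inverse).
As `deg D = 0`, `(τ g)(D)` is a product of such quotients (induction: `D = ∑ (Q_j - Q'_j)`).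
-/

set_option autoImplicit false

namespace Fermat.Agent.S19

open AlgebraicCurve Fermat.Agent.Lib.RR Fermat.Agent.GAL.RED Fermat.Agent.S19.Weil

variable {K F k Fb : Type*} [Field K] [Field F] [Algebra K F] [Field k] [Field Fb] [Algebra k Fb]
  [IsFF K F] [IsAlgClosed K] [IsFF k Fb] [IsAlgClosed k]
  {R : RedData K F k Fb} {r : Place K F → Place k Fb} {Γ : Type*} [Group Γ]
  {ρ : Γ →* SemilinearAut K F}

/-- B3a: an invariant effective divisor `𝔇` with `g, g⁻¹ ∈ L(𝔇)` supported on the orbit of the support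
of `div g`. -/
theorem exists_invariant_bound (h : GalRed R r ρ) {g : F} (hg : g ≠ 0) :
    ∃ 𝔇 : Divisor K F, 0 ≤ 𝔇 ∧ (∀ τ, ρ τ • 𝔇 = 𝔇) ∧ g ∈ riemannRochSpace 𝔇 ∧
      g⁻¹ ∈ riemannRochSpace 𝔇 ∧
      ∀ P ∈ 𝔇.support, ∃ τ, P ∈ (divOf (K := K) (ρ τ • g)).support := by
  classical
  set S := (divOf (K := K) g).support with hS
  let Z : Finset (Place K F) := S.biUnion fun P => (h.orbP P).toFinset
  have hZ : ∀ w, w ∈ Z ↔ ∃ P ∈ S, ∃ τ : Γ, ρ τ • P = w := by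
    intro w
    simp only [Z, Finset.mem_biUnion, Set.Finite.mem_toFinset, Set.mem_range]
  let n : ℤ := ∑ P ∈ S, |P.ord g|
  have hn0 : 0 ≤ n := Finset.sum_nonneg fun P _ => abs_nonneg _
  have hn : ∀ P ∈ S, |P.ord g| ≤ n := fun P hP =>
    Finset.single_le_sum (f := fun P : Place K F => |P.ord g|) (fun Q _ => abs_nonneg _) hP
  let 𝔇 : Divisor K F := Finsupp.onFinset Z (fun P => if P ∈ Z then n else 0) (by
    intro P hP
    by_contra hcon
    exact hP (if_neg hcon))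
  have h𝔇 : ∀ P, 𝔇 P = if P ∈ Z then n else 0 := fun P => rfl
  have hnonneg : ∀ P, 0 ≤ 𝔇 P := by
    intro P
    rw [h𝔇]
    split_ifs
    · exact hn0
    · exact le_rfl
  have hSZ : ∀ P ∈ S, P ∈ Z := fun P hP => (hZ P).2 ⟨P, hP, 1, by rw [map_one, one_smul]⟩
  have hbound : ∀ P : Place K F, |P.ord g| ≤ 𝔇 P := by
    intro P
    by_cases hP : P ∈ S
    · rw [h𝔇, if_pos (hSZ P hP)]
      exact hn P hP
    · have h0 : P.ord g = 0 := by
        rw [hS, Finsupp.mem_support_iff, divOf_apply, not_not] at hP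
        exact hP
      rw [h0, abs_zero]
      exact hnonneg P
  refine ⟨𝔇, fun P => hnonneg P, fun τ => ?_, ?_, ?_, ?_⟩
  · ext w
    rw [SemilinearAut.divisor_smul_apply, h𝔇, h𝔇]
    have hiff : (ρ τ)⁻¹ • w ∈ Z ↔ w ∈ Z := by
      rw [hZ, hZ]
      constructor
      · rintro ⟨P, hP, σ, hσ⟩
        refine ⟨P, hP, τ * σ, ?_⟩
        rw [map_mul, mul_smul, hσ, smul_inv_smul]
      · rintro ⟨P, hP, σ, hσ⟩
        refine ⟨P, hP, τ⁻¹ * σ, ?_⟩
        rw [map_mul, mul_smul, hσ, map_inv]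
    simp only [hiff]
  · rw [mem_riemannRochSpace_iff]
    intro P
    right
    have h1 := hbound P
    have h2 := neg_abs_le (P.ord g)
    omega
  · rw [mem_riemannRochSpace_iff]
    intro P
    right
    rw [Place.ord_inv]
    have h1 := hbound P
    have h2 := le_abs_self (P.ord g)
    omega
  · intro P hP
    have hPZ : P ∈ Z := by
      by_contra hcon
      rw [Finsupp.mem_support_iff, h𝔇, if_neg hcon] at hP
      exact hP rfl
    obtain ⟨P₀, hP₀, τ, rfl⟩ := (hZ P).1 hPZ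
    refine ⟨τ, ?_⟩
    rw [Weil.divOf_smul, Finsupp.mem_support_iff, SemilinearAut.divisor_smul_apply_smul]
    exact Finsupp.mem_support_iff.1 hP₀

omit [IsFF K F] [IsAlgClosed K] in
/-- semilinearity of the action on a linear combination of invariant elements. -/
theorem Num_smul_sum (g : SemilinearAut K F) {n : ℕ} {β : Fin n → F} (hinv : ∀ i, g • β i = β i)
    (c : Fin n → K) :
    g • (∑ i, c i • β i) = ∑ i, SemilinearAut.baseAut g (c i) • β i := by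
  rw [Finset.smul_sum]
  refine Finset.sum_congr rfl fun i _ => ?_
  rw [Algebra.smul_def, Algebra.smul_def, smul_mul', SemilinearAut.smul_algebraMap, hinv i]

/-- B3b: scale invariant products of coefficients are integral at all conjugates. -/
theorem conj_coeff_mul_mem (h : GalRed R r ρ) {g : F} (hg : g ≠ 0) {n : ℕ} {β : Fin n → F}
    (hinv : ∀ τ i, ρ τ • β i = β i) (hβ : ∀ i, β i ∈ R.O)
    (hind : LinearIndependent k (fun i => R.red (β i))) (c c' : Fin n → K)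
    (hc : g = ∑ i, c i • β i) (hc' : g⁻¹ = ∑ i, c' i • β i) (i l : Fin n) (τ : Γ) :
    SemilinearAut.baseAut (ρ τ) (c i * c' l) ∈ R.A := by
  have hτg : ρ τ • g ≠ 0 := by
    rw [Ne, smul_eq_zero_iff_eq]
    exact hg
  obtain ⟨a, ha0, ha⟩ := h.cartesian.exists_scale hτg
  have h1 : algebraMap K F a * ρ τ • g
      = ∑ j, (a * SemilinearAut.baseAut (ρ τ) (c j)) • β j := by
    conv_lhs => rw [hc]
    rw [Num_smul_sum (ρ τ) (hinv τ) c, ← Algebra.smul_def, Finset.smul_sum]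
    exact Finset.sum_congr rfl fun j _ => by rw [smul_smul]
  have h2 : (algebraMap K F a * ρ τ • g)⁻¹
      = ∑ j, (a⁻¹ * SemilinearAut.baseAut (ρ τ) (c' j)) • β j := by
    rw [mul_inv, ← smul_inv'' (ρ τ) g, hc', Num_smul_sum (ρ τ) (hinv τ) c', ← map_inv₀,
      ← Algebra.smul_def, Finset.smul_sum]
    exact Finset.sum_congr rfl fun j _ => by rw [smul_smul]
  have h3 := coeff_mem_of_sum_mem R hβ hind _ (h1 ▸ R.mem_of_red_ne_zero ha) i
  have h4 := coeff_mem_of_sum_mem R hβ hind _ (h2 ▸ R.inv_mem_of_red_ne_zero ha) l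
  have h5 : SemilinearAut.baseAut (ρ τ) (c i * c' l)
      = (a * SemilinearAut.baseAut (ρ τ) (c i)) * (a⁻¹ * SemilinearAut.baseAut (ρ τ) (c' l)) := by
    rw [map_mul]
    field_simp
  rw [h5]
  exact mul_mem h3 h4

/-- evaluation is `K`-linear on functions which are regular at `Q`. -/
theorem Num_ev_sum (Q : Place K F) {ι : Type*} (s : Finset ι) (a : ι → K) (β : ι → F)
    (hβ : ∀ i ∈ s, β i ∈ Q.toValuationSubring) :
    ∑ i ∈ s, a i • β i ∈ Q.toValuationSubring ∧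
      ev Q (∑ i ∈ s, a i • β i) = ∑ i ∈ s, a i * ev Q (β i) := by
  classical
  induction s using Finset.induction_on with
  | empty => simp [zero_mem]
  | insert j s hj ih =>
    obtain ⟨h1, h2⟩ := ih fun i hi => hβ i (Finset.mem_insert_of_mem hi)
    have h3 : a j • β j ∈ Q.toValuationSubring := by
      rw [Algebra.smul_def]
      exact mul_mem (Ev_algebraMap_mem Q (a j)) (hβ j (Finset.mem_insert_self j s))
    rw [Finset.sum_insert hj, Finset.sum_insert hj]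
    refine ⟨add_mem h3 h1, ?_⟩
    rw [ev_add Q h3 h1, h2, Algebra.smul_def,
      ev_mul Q (Ev_algebraMap_mem Q (a j)) (hβ j (Finset.mem_insert_self j s)), ev_algebraMap]

/-- B3c: one pair of points. -/
theorem isSep_num_pair (h : GalRed R r ρ) {g : F} (hg : g ≠ 0) (Q Q' : Place K F)
    (hQ : ∀ τ, ∀ P ∈ (divOf (K := K) (ρ τ • g)).support, r P ≠ r Q)
    (hQ' : ∀ τ, ∀ P ∈ (divOf (K := K) (ρ τ • g)).support, r P ≠ r Q') :
    IsSep ((baseHom K F).comp ρ) R.A (fun τ => ev Q (ρ τ • g) / ev Q' (ρ τ • g)) := by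
  classical
  obtain ⟨𝔇, h𝔇0, h𝔇inv, hg𝔇, hg𝔇', h𝔇supp⟩ := exists_invariant_bound h hg
  obtain ⟨n, β, hinv, hβO, hind, hspan⟩ := h.basis 𝔇 h𝔇inv
  have hβL : ∀ i, β i ∈ riemannRochSpace 𝔇 := fun i => by
    rw [← hspan]
    exact Submodule.subset_span ⟨i, rfl⟩
  obtain ⟨c, hc⟩ := (Submodule.mem_span_range_iff_exists_fun K).1 (hspan ▸ hg𝔇)
  obtain ⟨c', hc'⟩ := (Submodule.mem_span_range_iff_exists_fun K).1 (hspan ▸ hg𝔇')
  have hr𝔇 : ∀ Q₁ : Place K F,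
      (∀ τ, ∀ P ∈ (divOf (K := K) (ρ τ • g)).support, r P ≠ r Q₁) →
      ∀ P ∈ 𝔇.support, r P ≠ r Q₁ := by
    intro Q₁ hQ₁ P hP
    obtain ⟨τ, hτ⟩ := h𝔇supp P hP
    exact hQ₁ τ P hτ
  have hreg : ∀ Q₁ : Place K F,
      (∀ τ, ∀ P ∈ (divOf (K := K) (ρ τ • g)).support, r P ≠ r Q₁) →
      ∀ i, β i ∈ Q₁.toValuationSubring := by
    intro Q₁ hQ₁ i
    have h0 : 𝔇 Q₁ = 0 := by
      by_contra hcon
      exact hr𝔇 Q₁ hQ₁ Q₁ (Finsupp.mem_support_iff.2 hcon) rfl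
    rw [mem_iff_ord]
    rcases (mem_riemannRochSpace_iff.1 (hβL i)) Q₁ with h1 | h1
    · exact Or.inl h1
    · right
      rw [h0] at h1
      simpa using h1
  refine Sep_isSep_of_fintype (ι := Fin n × Fin n)
    (fun il => ev Q (β il.1) * ev Q' (β il.2)) (fun il => c il.1 * c' il.2) ?_ ?_ ?_
  · rintro ⟨i, l⟩
    exact mul_mem (ev_red h.isRedMap h𝔇0 (hβL i) (hβO i) (hr𝔇 Q hQ)).1
      (ev_red h.isRedMap h𝔇0 (hβL l) (hβO l) (hr𝔇 Q' hQ')).1
  · rintro ⟨i, l⟩ τ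
    exact conj_coeff_mul_mem h hg hinv hβO hind c c' hc.symm hc'.symm i l τ
  · intro τ
    have h1 : ev Q (ρ τ • g) = ∑ i, SemilinearAut.baseAut (ρ τ) (c i) * ev Q (β i) := by
      conv_lhs => rw [← hc]
      rw [Num_smul_sum (ρ τ) (hinv τ) c]
      exact (Num_ev_sum Q Finset.univ _ β fun i _ => hreg Q hQ i).2
    have h2 : (ev Q' (ρ τ • g))⁻¹ = ∑ l, SemilinearAut.baseAut (ρ τ) (c' l) * ev Q' (β l) := by
      rw [← ev_inv, ← smul_inv'' (ρ τ) g, ← hc', Num_smul_sum (ρ τ) (hinv τ) c']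
      exact (Num_ev_sum Q' Finset.univ _ β fun i _ => hreg Q' hQ' i).2
    rw [div_eq_mul_inv, h1, h2, Finset.sum_mul_sum, Fintype.sum_prod_type]
    refine Finset.sum_congr rfl fun i _ => Finset.sum_congr rfl fun l _ => ?_
    show _ = ev Q (β i) * ev Q' (β l) * SemilinearAut.baseAut (ρ τ) (c i * c' l)
    rw [map_mul]
    ring

/-- B3d: divisors of degree `0`. -/
theorem isSep_num (h : GalRed R r ρ) {g : F} (hg : g ≠ 0) (D : Divisor K F)
    (hD : Divisor.degree D = 0)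
    (hdisj : ∀ τ, ∀ P ∈ (divOf (K := K) (ρ τ • g)).support, ∀ Q ∈ D.support, r P ≠ r Q) :
    IsSep ((baseHom K F).comp ρ) R.A (fun τ => ((evD (ρ τ • g) D : Kˣ) : K)) := by
  classical
  by_cases hD0 : D = 0
  · subst hD0
    simpa using IsSep.const (β := (baseHom K F).comp ρ) R.A.one_mem
  obtain ⟨Q₀, hQ₀⟩ : ∃ Q₀, Q₀ ∈ D.support := by
    by_contra hcon
    push Not at hcon
    exact hD0 (Finsupp.support_eq_empty.1 (Finset.eq_empty_of_forall_notMem hcon))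
  have hcond : ∀ Q ∈ D.support, ∀ τ, ∀ P ∈ (divOf (K := K) (ρ τ • g)).support, r P ≠ r Q :=
    fun Q hQ τ P hP => hdisj τ P hP Q hQ
  have hτg : ∀ τ, ρ τ • g ≠ 0 := fun τ => by
    rw [Ne, smul_eq_zero_iff_eq]
    exact hg
  have hord : ∀ Q ∈ D.support, ∀ τ, Q.ord (ρ τ • g) = 0 := by
    intro Q hQ τ
    by_contra hcon
    have h1 : Q ∈ (divOf (K := K) (ρ τ • g)).support := by
      rw [Finsupp.mem_support_iff, divOf_apply]
      exact hcon
    exact hcond Q hQ τ Q h1 rfl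
  have hev : ∀ Q ∈ D.support, ∀ τ, ev Q (ρ τ • g) ≠ 0 := fun Q hQ τ =>
    (ev_ne_zero_iff Q).2 ⟨hτg τ, hord Q hQ τ⟩
  have hsum : ∑ Q ∈ D.support, D Q = 0 := by
    have h1 := degree_eq_sum D
    rw [hD] at h1
    exact h1.symm
  -- each factor
  have hfac : ∀ Q ∈ D.support, IsSep ((baseHom K F).comp ρ) R.A
      (fun τ => (ev Q (ρ τ • g) / ev Q₀ (ρ τ • g)) ^ (D Q)) := by
    intro Q hQ
    rcases le_total 0 (D Q) with hn | hn
    · obtain ⟨m, hm⟩ := Int.eq_ofNat_of_zero_le hn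
      refine Sep_congr ((isSep_num_pair h hg Q Q₀ (hcond Q hQ) (hcond Q₀ hQ₀)).pow m) fun τ => ?_
      rw [hm, zpow_natCast]
    · obtain ⟨m, hm⟩ := Int.eq_ofNat_of_zero_le (neg_nonneg.2 hn)
      refine Sep_congr ((isSep_num_pair h hg Q₀ Q (hcond Q₀ hQ₀) (hcond Q hQ)).pow m) fun τ => ?_
      have h2 : D Q = -(m : ℤ) := by omega
      rw [h2, zpow_neg, zpow_natCast, ← inv_pow, inv_div]
  refine Sep_congr (IsSep.prod D.support hfac) fun τ => ?_
  have h3 : ((evD (ρ τ • g) D : Kˣ) : K) = ∏ Q ∈ D.support, ev Q (ρ τ • g) ^ (D Q) := by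
    unfold evD
    rw [Finsupp.prod, Units.coe_prod]
    refine Finset.prod_congr rfl fun Q hQ => ?_
    rw [Units.val_zpow_eq_zpow_val, evU_val Q (hτg τ) (hord Q hQ τ)]
  rw [h3]
  have h4 : ∏ Q ∈ D.support, (ev Q (ρ τ • g) / ev Q₀ (ρ τ • g)) ^ (D Q)
      = (∏ Q ∈ D.support, ev Q (ρ τ • g) ^ (D Q)) / ∏ Q ∈ D.support, ev Q₀ (ρ τ • g) ^ (D Q) := by
    rw [← Finset.prod_div_distrib]
    exact Finset.prod_congr rfl fun Q _ => div_zpow _ _ _
  have h5 : ∀ (s : Finset (Place K F)) (a : K), a ≠ 0 →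
      ∏ Q ∈ s, a ^ (D Q) = a ^ (∑ Q ∈ s, D Q) := by
    intro s a ha
    induction s using Finset.induction_on with
    | empty => simp
    | insert j s hj ih => rw [Finset.prod_insert hj, Finset.sum_insert hj, zpow_add₀ ha, ih]
  rw [h4, h5 _ _ (hev Q₀ hQ₀ τ), hsum, zpow_zero, div_one]

end Fermat.Agent.S19
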