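import Fermat.Agent.S19.B.GoodPos
import Fermat.Agent.S19.B.Num
import Fermat.Agent.S19.B.Den
import Fermat.Agent.S19.Weil.Pairing

/-!
# S19 / B5: Theorem B.  The Weil pairing has separated variables.

`(E, g)` any representative of `y` (`Weil.exists_isRep`), so `(τ E, τ g)` represents `τ y` (`IsRep.smul`).
`Z̄' := r(Γ · supp E)` (finite by `orbP`).  `𝔄` from `GalRed.aux Z̄' (3 g)`.  `D` from `exists_good_rep`
(`D + 𝔄 ≥ 0`, `r(supp (D + 𝔄)) ∩ Z̄' = ∅`), so `r(supp D) ∩ Z̄' = ∅`.  `div f = m D`, `f` normalised to a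
Gauss unit (`IsCartesian.exists_scale`), `f ∈ L(m 𝔄)`.  For all `τ`:
`weil m x (τ y) = f(τ E) / (τ g)(D)` (`Weil.weil_eq`).  Conclude with `isSep_den`, `isSep_num` (applied to
`-D`, `Weil.evD_neg`), `IsSep.mul`.
-/

set_option autoImplicit false

namespace Fermat.Agent.S19

open AlgebraicCurve Fermat.Agent.Lib.RR Fermat.Agent.GAL.RED Fermat.Agent.S19.Weil

variable {K F k Fb : Type*} [Field K] [Field F] [Algebra K F] [Field k] [Field Fb] [Algebra k Fb]
  [IsFF K F] [IsAlgClosed K] [CharZero K] [IsFF k Fb] [IsAlgClosed k]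
  {R : RedData K F k Fb} {r : Place K F → Place k Fb} {Γ : Type*} [Group Γ]
  {ρ : Γ →* SemilinearAut K F}

theorem isSep_weil (h : GalRed R r ρ) (hg : genusFF K F = genusFF k Fb) {m : ℕ} (hm : m ≠ 0)
    {x y : Pic0 K F} (hx : x ∈ Pic0.torsion K F m) (hy : y ∈ Pic0.torsion K F m) :
    IsSep ((baseHom K F).comp ρ) R.A (fun τ => ((weil m x (ρ τ • y) : Kˣ) : K)) := by
  classical
  obtain ⟨E, g, hE, -⟩ := exists_isRep hy ∅
  have hg0 : g ≠ 0 := PairAux_ne_zero hE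
  -- the finite set `Z = r(Γ · supp E)`
  have hZfin : (⋃ P ∈ E.support, r '' (Set.range fun τ : Γ => ρ τ • P)).Finite :=
    Set.Finite.biUnion E.support.finite_toSet fun P _ => (h.orbP P).image r
  set Z : Finset (Place k Fb) := hZfin.toFinset with hZ
  have hmemZ : ∀ τ : Γ, ∀ P ∈ E.support, r (ρ τ • P) ∈ Z := by
    intro τ P hP
    rw [hZ, Set.Finite.mem_toFinset]
    exact Set.mem_biUnion (Finset.mem_coe.2 hP) ⟨_, ⟨τ, rfl⟩, rfl⟩
  -- points of the support of `τ E`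
  have hmemZ' : ∀ τ : Γ, ∀ P : Place K F, (ρ τ • E) P ≠ 0 → r P ∈ Z := by
    intro τ P hP
    rw [SemilinearAut.divisor_smul_apply] at hP
    have h1 := hmemZ τ _ (Finsupp.mem_support_iff.2 hP)
    rwa [smul_inv_smul] at h1
  obtain ⟨𝔄, h𝔄0, h𝔄deg, h𝔄inv, h𝔄Z⟩ := h.aux Z (3 * genusFF K F)
  obtain ⟨⟨D, hDdeg⟩, hDx, hD𝔄, hDZ⟩ := exists_good_rep h.isRedMap hg x 𝔄
    (by push_cast at h𝔄deg; exact h𝔄deg) Z
  simp only at hD𝔄 hDZ
  have hDZ' : ∀ P : Place K F, D P ≠ 0 → r P ∉ Z := by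
    intro P hP
    by_cases h1 : 𝔄 P = 0
    · apply hDZ P
      rw [Finsupp.mem_support_iff, Finsupp.add_apply, h1, add_zero]
      exact hP
    · exact h𝔄Z P (Finsupp.mem_support_iff.2 h1)
  -- the function `f`
  have hx' := hx
  rw [Pic0.mem_torsion, ← hDx, PairAux_zsmul_mk_eq_zero_iff] at hx'
  obtain ⟨f₀, hf₀, hdiv₀⟩ := hx'
  obtain ⟨c, hc0, hred⟩ := h.cartesian.exists_scale hf₀
  set f : F := algebraMap K F c * f₀ with hf
  have hcF : algebraMap K F c ≠ 0 := by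
    rw [Ne, map_eq_zero]
    exact hc0
  have hf0 : f ≠ 0 := mul_ne_zero hcF hf₀
  have hdiv : divOf (K := K) f = m • D := by
    rw [hf, divOf_mul hcF hf₀, divOf_algebraMap, zero_add, hdiv₀]
  have hrep : IsRep m x D f := ⟨hDdeg, hDx, hf0, hdiv⟩
  have hfL : f ∈ riemannRochSpace (m • 𝔄) := by
    rw [mem_L_iff]
    right
    rw [hdiv, ← smul_add]
    exact nsmul_nonneg hD𝔄 m
  have hsupp : ∀ (B : Divisor K F) (Q : Place K F), Q ∈ (m • B).support → B Q ≠ 0 := by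
    intro B Q hQ h0
    rw [Finsupp.mem_support_iff, Finsupp.smul_apply, h0, smul_zero] at hQ
    exact hQ rfl
  -- the formula
  have hformula : ∀ τ : Γ, weil m x (ρ τ • y) = evD f (ρ τ • E) * evD (ρ τ • g) (-D) := by
    intro τ
    have hd : DisjD D (ρ τ • E) := by
      intro P
      by_cases h1 : (ρ τ • E) P = 0
      · exact Or.inr h1
      · left
        by_contra h2
        exact hDZ' P h2 (hmemZ' τ P h1)
    rw [weil_eq hrep (hE.smul (ρ τ)) hd, evD_neg, div_eq_mul_inv]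
  have hden : IsSep ((baseHom K F).comp ρ) R.A (fun τ => ((evD f (ρ τ • E) : Kˣ) : K)) := by
    refine isSep_den h hred (nsmul_nonneg h𝔄0 m) (fun τ => ?_) hfL E ?_ ?_
    · rw [smul_comm, h𝔄inv τ]
    · intro τ P hP Q hQ heq
      exact h𝔄Z Q (Finsupp.mem_support_iff.2 (hsupp 𝔄 Q hQ)) (heq ▸ hmemZ τ P hP)
    · intro τ P hP Q hQ heq
      rw [hdiv] at hQ
      exact hDZ' Q (hsupp D Q hQ) (heq ▸ hmemZ τ P hP)
  have hnum : IsSep ((baseHom K F).comp ρ) R.A (fun τ => ((evD (ρ τ • g) (-D) : Kˣ) : K)) := by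
    refine isSep_num h hg0 (-D) ?_ ?_
    · rw [map_neg, neg_eq_zero]
      exact hDdeg
    · intro τ P hP Q hQ heq
      rw [divOf_smul, PairAux_divOf hE, smul_comm] at hP
      have h1 := hmemZ' τ P (hsupp _ P hP)
      rw [Finsupp.support_neg, Finsupp.mem_support_iff] at hQ
      exact hDZ' Q hQ (heq ▸ h1)
  refine (hden.mul hnum).congr fun τ => ?_
  rw [hformula τ, Units.val_mul]

end Fermat.Agent.S19
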