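import Fermat.Agent.S19.Defs
import Fermat.Prelude.Def_AlgebraicCurve_BaseChangeGalois
import Fermat.Agent.GAL.RED.Main

/-!
# S19 / B: separation of variables for the Weil pairing on a curve with good reduction.  Definitions.

`K ⊇ A` valued algebraically closed field, residue field `k`; `F / K`, `Fb / k` function fields,
`R : RedData K F k Fb` (GAL-RED), `r` the reduction map on places, `Γ` a group acting semilinearly on
`F / K` through `ρ`.
-/

set_option autoImplicit false

namespace Fermat.Agent.S19

open AlgebraicCurve Fermat.Agent.Lib.RR Fermat.Agent.GAL.RED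

/-- The action on the constant field, as a homomorphism. -/
def baseHom (K F : Type*) [Field K] [Field F] [Algebra K F] : SemilinearAut K F →* RingAut K where
  toFun g := SemilinearAut.baseAut g
  map_one' := rfl
  map_mul' _ _ := rfl

@[simp] theorem baseHom_apply {K F : Type*} [Field K] [Field F] [Algebra K F]
    (g : SemilinearAut K F) : baseHom K F g = SemilinearAut.baseAut g := rfl

variable {K F k Fb : Type*} [Field K] [Field F] [Algebra K F] [Field k] [Field Fb] [Algebra k Fb]

/-- The hypotheses of Theorem B. -/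
structure GalRed [HasPrincipalDivisors K F] [HasPrincipalDivisors k Fb] (R : RedData K F k Fb)
    (r : Place K F → Place k Fb) {Γ : Type*} [Group Γ] (ρ : Γ →* SemilinearAut K F) : Prop where
  isRedMap : IsRedMap R r
  cartesian : R.IsCartesian
  /-- finite orbits on the constants -/
  orbK : ∀ b : K, (Set.range fun τ : Γ => SemilinearAut.baseAut (ρ τ) b).Finite
  /-- finite orbits on the places -/
  orbP : ∀ P : Place K F, (Set.range fun τ : Γ => ρ τ • P).Finite
  /-- `L(D)` has a `Γ`-invariant orthonormal basis if `D` is `Γ`-invariant -/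
  basis : ∀ D : Divisor K F, (∀ τ, ρ τ • D = D) → ∃ (n : ℕ) (β : Fin n → F),
    (∀ τ i, ρ τ • β i = β i) ∧ (∀ i, β i ∈ R.O) ∧ LinearIndependent k (fun i => R.red (β i)) ∧
      Submodule.span K (Set.range β) = riemannRochSpace D
  /-- `Γ`-invariant effective divisors of large degree whose reduction avoids a given finite set -/
  aux : ∀ (Z : Finset (Place k Fb)) (n : ℕ), ∃ 𝔄 : Divisor K F, 0 ≤ 𝔄 ∧
    (n : ℤ) ≤ Divisor.degree 𝔄 ∧ (∀ τ, ρ τ • 𝔄 = 𝔄) ∧ ∀ P ∈ 𝔄.support, r P ∉ Z

end Fermat.Agent.S19
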