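import Fermat.Agent.S19.B.Defs
import Fermat.Agent.S19.Weil.Ev

/-!
# S19 / B1: evaluation commutes with reduction (away from the reduction of the poles)

WARNING: "`red f` regular at `r P` ⟹ `f(P)` integral" is FALSE in general (a zero and a pole of `f` may
cancel in the reduction); the correct hypothesis is that the POLES of `f` do not reduce to `r P`.

Proof of `ev_red`.  Enlarge `D` (add a multiple of a point `Q₀` with `r Q₀ ≠ r P`; `r` is onto and `Fb` has
infinitely many places) so that `deg D ≥ 3 g + 1`.  `P ∉ supp D`, so `f` is regular at `P`; `b := f(P)`.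
If `b ∉ A`: `g := b⁻¹ f - 1 ∈ L(D - P) ∩ O` has reduction `-1`, which is not in
`L(r_* D - r P) = redSub (L(D - P))` (`IsRedMap.redSub_L`): the coefficient of `r_* D` at `r P` is `0`.
So `b ∈ A`, `g := f - b ∈ L(D - P) ∩ O`, so `red f - red b ∈ L(r_* D - r P)` vanishes at `r P`.
-/

set_option autoImplicit false

namespace Fermat.Agent.S19

open AlgebraicCurve Fermat.Agent.Lib.RR Fermat.Agent.GAL.RED Fermat.Agent.S19.Weil

variable {K F k Fb : Type*} [Field K] [Field F] [Algebra K F] [Field k] [Field Fb] [Algebra k Fb]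
  [IsFF K F] [IsAlgClosed K] [IsFF k Fb] [IsAlgClosed k]
  {R : RedData K F k Fb} {r : Place K F → Place k Fb}

omit [IsFF K F] [IsAlgClosed K] [IsFF k Fb] [IsAlgClosed k] in
theorem EvalRed_mapDomain_apply_eq_zero {D : Divisor K F} {x : Place k Fb}
    (hP : ∀ Q ∈ D.support, r Q ≠ x) : Finsupp.mapDomain r D x = 0 := by
  rw [Finsupp.mapDomain, Finsupp.sum_apply]
  refine Finset.sum_eq_zero fun Q hQ => ?_
  exact Finsupp.single_eq_of_ne (Ne.symm (hP Q hQ))

theorem EvalRed_aux (hr : IsRedMap R r) {D : Divisor K F} (hD : 0 ≤ D)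
    (hdeg : 3 * (genusFF K F : ℤ) + 1 ≤ Divisor.degree D) {f : F}
    (hf : f ∈ riemannRochSpace D) (hfO : f ∈ R.O) {P : Place K F}
    (hP : ∀ Q ∈ D.support, r Q ≠ r P) :
    ev P f ∈ R.A ∧ R.redA (ev P f) = ev (r P) (R.red f) := by
  have hDP : D P = 0 := by
    by_contra h
    exact hP P (Finsupp.mem_support_iff.2 h) rfl
  have hmap : Finsupp.mapDomain r D (r P) = 0 := EvalRed_mapDomain_apply_eq_zero hP
  have hfP : f ∈ P.toValuationSubring := by
    rw [mem_iff_ord]
    rcases mem_riemannRochSpace_iff.1 hf P with h | h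
    · exact Or.inl h
    · right
      rw [hDP] at h
      simpa using h
  -- the key claim
  have key : ∀ g ∈ riemannRochSpace D, g ∈ R.O → (g = 0 ∨ 0 < P.ord g) →
      (R.red g = 0 ∨ 0 < (r P).ord (R.red g)) := by
    intro g hg hgO hg0
    have h1 : g ∈ riemannRochSpace (D + Finsupp.single P (-1)) := by
      rw [mem_riemannRochSpace_iff]
      intro v
      rcases hg0 with h | h
      · exact Or.inl h
      rcases mem_riemannRochSpace_iff.1 hg v with h' | h'
      · exact Or.inl h'
      right
      rw [Finsupp.add_apply]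
      by_cases hv : v = P
      · subst hv
        rw [hDP, Finsupp.single_eq_same]
        omega
      · rw [Finsupp.single_eq_of_ne hv]
        simpa using h'
    have h2 : 3 * (genusFF K F : ℤ) ≤ Divisor.degree (D + Finsupp.single P (-1)) := by
      have : Divisor.degree (Finsupp.single P (-1) : Divisor K F) = -1 := by
        rw [degree_eq_sum, Finsupp.sum_single_index rfl]
      rw [map_add, this]
      omega
    have h3 : R.red g ∈ R.redSub (riemannRochSpace (D + Finsupp.single P (-1))) :=
      R.mem_redSub.2 ⟨g, h1, hgO, rfl⟩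
    rw [hr.redSub_L _ h2, Finsupp.mapDomain_add, Finsupp.mapDomain_single,
      mem_riemannRochSpace_iff] at h3
    rcases h3 (r P) with h | h
    · exact Or.inl h
    · right
      rw [Finsupp.add_apply, hmap, Finsupp.single_eq_same] at h
      omega
  have h1L : ∀ a : K, algebraMap K F a ∈ riemannRochSpace D := fun a =>
    L_mono hD (algebraMap_mem_L_zero a)
  have hbA : ev P f ∈ R.A := by
    by_contra hb
    set b := ev P f with hbdef
    have hb0 : b ≠ 0 := by
      intro h
      exact hb (h ▸ R.A.zero_mem)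
    have hbinv : b⁻¹ ∈ R.A := by
      rcases R.A.mem_or_inv_mem b with h | h
      · exact absurd h hb
      · exact h
    have hred0 : R.redA b⁻¹ = 0 := by
      by_contra h
      have := (R.redA_ne_zero_iff.1 h).2.2
      rw [inv_inv] at this
      exact hb this
    have hg1 : b⁻¹ • f - 1 ∈ riemannRochSpace D := by
      refine Submodule.sub_mem _ (Submodule.smul_mem _ _ hf) ?_
      simpa using h1L 1
    have hg2 : b⁻¹ • f - 1 ∈ R.O := R.O.sub_mem (R.smul_mem hbinv hfO) R.O.one_mem
    have hg3 : R.red (b⁻¹ • f - 1) = -1 := by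
      rw [R.red_sub (R.smul_mem hbinv hfO) R.O.one_mem, R.red_smul hbinv hfO, hred0, zero_smul,
        zero_sub, R.red_one]
    have hg4 : b⁻¹ • f - 1 = algebraMap K F b⁻¹ * (f - algebraMap K F b) := by
      rw [mul_sub, ← map_mul, inv_mul_cancel₀ hb0, map_one, Algebra.smul_def]
    have hg5 : b⁻¹ • f - 1 = 0 ∨ 0 < P.ord (b⁻¹ • f - 1) := by
      rcases ord_sub_ev_pos P hfP with h | h
      · left
        rw [hg4, sub_eq_zero.2 h, mul_zero]
      · right
        have hne : f - algebraMap K F b ≠ 0 := by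
          intro h0
          rw [h0, Place.ord_zero] at h
          exact lt_irrefl _ h
        rw [hg4, P.ord_mul (by simpa using hb0) hne, GAL.RED.ord_algebraMap, zero_add]
        exact h
    rcases key _ hg1 hg2 hg5 with h | h
    · rw [hg3] at h
      simp at h
    · rw [hg3, GAL.RED.ord_neg] at h
      have : (r P).ord (1 : Fb) = 0 := by
        simp
      omega
  refine ⟨hbA, ?_⟩
  have hredf : R.red f ∈ (r P).toValuationSubring := by
    have h3 : R.red f ∈ R.redSub (riemannRochSpace D) := R.mem_redSub.2 ⟨f, hf, hfO, rfl⟩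
    rw [hr.redSub_L _ (by omega), mem_riemannRochSpace_iff] at h3
    rw [mem_iff_ord]
    rcases h3 (r P) with h | h
    · exact Or.inl h
    · right
      rw [hmap] at h
      simpa using h
  symm
  rw [ev_eq_iff (r P) hredf]
  have hg2 : f - algebraMap K F (ev P f) ∈ R.O := R.O.sub_mem hfO (R.algebraMap_mem _ hbA)
  have := key _ (Submodule.sub_mem _ hf (h1L _)) hg2 (by
    rcases ord_sub_ev_pos P hfP with h | h
    · exact Or.inl (sub_eq_zero.2 h)
    · exact Or.inr h)
  rw [R.red_sub hfO (R.algebraMap_mem _ hbA), R.red_algebraMap hbA, sub_eq_zero] at this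
  exact this

theorem ev_red (hr : IsRedMap R r) {D : Divisor K F} (hD : 0 ≤ D) {f : F}
    (hf : f ∈ riemannRochSpace D) (hfO : f ∈ R.O) {P : Place K F}
    (hP : ∀ Q ∈ D.support, r Q ≠ r P) :
    ev P f ∈ R.A ∧ R.redA (ev P f) = ev (r P) (R.red f) := by
  have : Infinite (Place k Fb) := infinite_place
  obtain ⟨x, hx⟩ := exists_ne (r P)
  obtain ⟨Q₀, rfl⟩ := hr.surjective x
  have h0 : (0 : Divisor K F) ≤ Finsupp.single Q₀ (3 * (genusFF K F : ℤ) + 1) := by
    intro v
    by_cases hv : v = Q₀
    · subst hv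
      rw [Finsupp.single_eq_same]
      simp only [Finsupp.coe_zero, Pi.zero_apply]
      positivity
    · rw [Finsupp.single_eq_of_ne hv]
      exact le_refl _
  refine EvalRed_aux hr (D := D + Finsupp.single Q₀ (3 * (genusFF K F : ℤ) + 1))
    (add_nonneg hD h0) ?_ (L_mono (le_add_of_nonneg_right h0) hf) hfO ?_
  · have h1 : Divisor.degree (Finsupp.single Q₀ (3 * (genusFF K F : ℤ) + 1) : Divisor K F)
        = 3 * (genusFF K F : ℤ) + 1 := by
      rw [degree_eq_sum, Finsupp.sum_single_index rfl]
    rw [map_add, h1]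
    have := degree_nonneg hD
    omega
  · intro Q hQ
    classical
    rcases Finset.mem_union.1 (Finsupp.support_add hQ) with h | h
    · exact hP Q h
    · have := Finsupp.support_single_subset h
      rw [Finset.mem_singleton] at this
      rw [this]
      exact hx

theorem EvalRed_mem_L_poleDiv (f : F) : f ∈ riemannRochSpace (poleDiv (K := K) f) := by
  rw [mem_riemannRochSpace_iff]
  intro v
  right
  rw [poleDiv_apply]
  omega

theorem EvalRed_poleDiv_nonneg (f : F) : 0 ≤ poleDiv (K := K) f := by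
  intro v
  rw [poleDiv_apply]
  simp

theorem EvalRed_support_poleDiv (f : F) :
    (poleDiv (K := K) f).support ⊆ (divOf (K := K) f).support := by
  intro v hv
  rw [Finsupp.mem_support_iff] at hv ⊢
  rw [poleDiv_apply] at hv
  rw [divOf_apply]
  intro h
  rw [h] at hv
  simp at hv

/-- A Gauss unit whose zeros and poles do not reduce to `r P` takes a unit value at `P`. -/
theorem ev_unit (hr : IsRedMap R r) {f : F} (hf : R.red f ≠ 0) {P : Place K F}
    (hP : ∀ Q ∈ (divOf (K := K) f).support, r Q ≠ r P) :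
    ev P f ≠ 0 ∧ ev P f ∈ R.A ∧ (ev P f)⁻¹ ∈ R.A := by
  obtain ⟨hf0, hfO, hfO'⟩ := R.red_ne_zero_iff.1 hf
  refine ⟨?_, ?_, ?_⟩
  · rw [ev_ne_zero_iff]
    refine ⟨hf0, ?_⟩
    by_contra h
    refine hP P ?_ rfl
    rw [Finsupp.mem_support_iff, divOf_apply]
    exact h
  · exact (ev_red hr (EvalRed_poleDiv_nonneg f) (EvalRed_mem_L_poleDiv f) hfO
      (fun Q hQ => hP Q (EvalRed_support_poleDiv f hQ))).1
  · rw [← ev_inv]
    refine (ev_red hr (EvalRed_poleDiv_nonneg f⁻¹) (EvalRed_mem_L_poleDiv f⁻¹) hfO'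
      (fun Q hQ => hP Q ?_)).1
    have := EvalRed_support_poleDiv f⁻¹ hQ
    rwa [divOf_inv, Finsupp.support_neg] at this

/-- Orthonormality: coefficients with respect to a family with linearly independent reductions.
(Scale by the coefficient of largest valuation: `GAL.RED.exists_scale_family`.) -/
theorem coeff_mem_of_sum_mem (R : RedData K F k Fb) {n : ℕ} {β : Fin n → F} (hβ : ∀ i, β i ∈ R.O)
    (hind : LinearIndependent k (fun i => R.red (β i))) (c : Fin n → K)
    (h : ∑ i, c i • β i ∈ R.O) : ∀ i, c i ∈ R.A := by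
  by_cases hc : c = 0
  · intro i
    rw [hc]
    exact R.A.zero_mem
  obtain ⟨a, ha0, haA, i₀, hi₀⟩ := R.exists_scale_family c hc
  have hsum : R.red (∑ i, (a * c i) • β i) = ∑ i, R.redA (a * c i) • R.red (β i) := by
    rw [R.red_sum _ _ (fun i _ => R.smul_mem (haA i) (hβ i))]
    exact Finset.sum_congr rfl fun i _ => R.red_smul (haA i) (hβ i)
  have hne : R.red (∑ i, (a * c i) • β i) ≠ 0 := by
    rw [hsum]
    intro h0
    exact hi₀ (Fintype.linearIndependent_iff.1 hind _ h0 i₀)
  have hEq : ∑ i, (a * c i) • β i = a • ∑ i, c i • β i := by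
    rw [Finset.smul_sum]
    exact Finset.sum_congr rfl fun i _ => mul_smul _ _ _
  have hainv : a⁻¹ ∈ R.A := by
    by_contra hcon
    have haA' : a ∈ R.A := by
      rcases R.A.mem_or_inv_mem a with h1 | h1
      · exact h1
      · exact absurd h1 hcon
    have h0 : R.redA a = 0 := by
      by_contra h1
      exact hcon (R.redA_ne_zero_iff.1 h1).2.2
    apply hne
    rw [hEq, R.red_smul haA' h, h0, zero_smul]
  intro i
  have : c i = a⁻¹ * (a * c i) := by
    rw [← mul_assoc, inv_mul_cancel₀ ha0, one_mul]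
  rw [this]
  exact R.A.mul_mem _ _ hainv (haA i)

end Fermat.Agent.S19
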