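import Fermat.Agent.S19.B.Defs
import Fermat.Agent.GAL.FF.General

/-!
# S19 / B2: representatives in good position

`x` a class of degree `0`, `𝔄 ≥ 0` of degree `≥ 3 g`, `Z` a finite set of places of the reduction.  Then `x`
is represented by `E - 𝔄` with `E ≥ 0` and `r(supp E) ∩ Z = ∅`.

Proof.  `D₀` any representative, `D̄ := r_*(D₀ + 𝔄)`, of degree `≥ 3 g ≥ 2 g`: there is
`s̄ ∈ L(D̄)`, `s̄ ≠ 0`, with `ord_z s̄ = - D̄ z` for all `z ∈ Z` (`GAL.FF.exists_mem_L_forall_ord_eq`).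
`redSub (L(D₀ + 𝔄)) = L(D̄)` (`IsRedMap.redSub_L`): lift `s̄` to `s ∈ L(D₀ + 𝔄) ∩ O`.
`E := div s + D₀ + 𝔄 ≥ 0`, `r_* E = div s̄ + D̄` (`IsRedMap.map_divOf`) has coefficient `0` at `z ∈ Z`; as
`E ≥ 0`, no point of `supp E` maps to `z` (`Finsupp.mapDomain` of a nonnegative function).
-/

set_option autoImplicit false
set_option linter.unusedSectionVars false

namespace Fermat.Agent.S19

open AlgebraicCurve Fermat.Agent.Lib.RR Fermat.Agent.GAL.RED

variable {K F k Fb : Type*} [Field K] [Field F] [Algebra K F] [Field k] [Field Fb] [Algebra k Fb]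
  [IsFF K F] [IsAlgClosed K] [IsFF k Fb] [IsAlgClosed k]
  {R : RedData K F k Fb} {r : Place K F → Place k Fb}

/-- degree of `r_* D`. -/
theorem degree_mapDomain (r : Place K F → Place k Fb) (D : Divisor K F) :
    Divisor.degree (Finsupp.mapDomain r D) = Divisor.degree D := by
  rw [degree_eq_sum, degree_eq_sum, Finsupp.sum_mapDomain_index (fun _ => rfl) (fun _ _ _ => rfl)]

/-- support of `r_* E` for `E ≥ 0`. -/
theorem mapDomain_apply_eq_zero_iff (r : Place K F → Place k Fb) {E : Divisor K F} (hE : 0 ≤ E)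
    (z : Place k Fb) : Finsupp.mapDomain r E z = 0 ↔ ∀ P ∈ E.support, r P ≠ z := by
  classical
  rw [mapDomain_apply_eq_sum, Finset.sum_eq_zero_iff_of_nonneg (fun P _ => hE P)]
  constructor
  · intro h P hP hz
    exact (Finsupp.mem_support_iff.1 hP) (h P (Finset.mem_filter.2 ⟨hP, hz⟩))
  · intro h P hP
    obtain ⟨hP1, hP2⟩ := Finset.mem_filter.1 hP
    exact absurd hP2 (h P hP1)

theorem exists_good_rep (hr : IsRedMap R r) (hg : genusFF K F = genusFF k Fb) (x : Pic0 K F)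
    (𝔄 : Divisor K F) (hdeg : 3 * (genusFF K F : ℤ) ≤ Divisor.degree 𝔄) (Z : Finset (Place k Fb)) :
    ∃ D : Divisor.degZero (K := K) (F := F), Pic0.mk D = x ∧ 0 ≤ D.1 + 𝔄 ∧
      ∀ P ∈ (D.1 + 𝔄).support, r P ∉ Z := by
  obtain ⟨⟨D₀, hD₀⟩, rfl⟩ := Pic0.mk_surjective x
  have hD₀' : Divisor.degree D₀ = 0 := hD₀
  have hdeg1 : 3 * (genusFF K F : ℤ) ≤ Divisor.degree (D₀ + 𝔄) := by
    rw [map_add, hD₀', zero_add]; exact hdeg
  have hdeg2 : 2 * (genusFF k Fb : ℤ) ≤ Divisor.degree (Finsupp.mapDomain r (D₀ + 𝔄)) := by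
    rw [degree_mapDomain, ← hg]
    have : (0 : ℤ) ≤ (genusFF K F : ℤ) := Int.natCast_nonneg _
    omega
  obtain ⟨sb, hsb0, hsbL, hsbZ⟩ := Fermat.Agent.GAL.FF.General.exists_mem_L_forall_ord_eq hdeg2 Z
  rw [← hr.redSub_L _ hdeg1] at hsbL
  obtain ⟨s, hsL, hsO, rfl⟩ := hsbL
  have hs0 : s ≠ 0 := by
    rintro rfl
    exact hsb0 R.red_zero
  have hD : D₀ + divOf (K := K) s ∈ Divisor.degZero (K := K) (F := F) := by
    show Divisor.degree (D₀ + divOf (K := K) s) = 0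
    rw [map_add, degree_divOf, hD₀', add_zero]
  have hE : 0 ≤ D₀ + divOf (K := K) s + 𝔄 := by
    intro P
    have := (mem_riemannRochSpace_iff.1 hsL P).resolve_left hs0
    simp only [Finsupp.add_apply, divOf_apply, Finsupp.coe_zero, Pi.zero_apply] at this ⊢
    omega
  refine ⟨⟨D₀ + divOf (K := K) s, hD⟩, ?_, hE, ?_⟩
  · unfold Pic0.mk
    rw [QuotientAddGroup.eq, AddSubgroup.mem_addSubgroupOf]
    refine ⟨s⁻¹, inv_ne_zero hs0, fun v => ?_⟩
    rw [v.ord_inv]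
    simp
  · intro P hP hz
    have h1 : Finsupp.mapDomain r (D₀ + divOf (K := K) s + 𝔄) (r P) = 0 := by
      have h2 : D₀ + divOf (K := K) s + 𝔄 = divOf (K := K) s + (D₀ + 𝔄) := by abel
      rw [h2, Finsupp.mapDomain_add, hr.map_divOf s hsb0, Finsupp.add_apply, divOf_apply,
        hsbZ _ hz]
      omega
    exact (mapDomain_apply_eq_zero_iff r hE (r P)).1 h1 P hP rfl

end Fermat.Agent.S19
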